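import Fermat.Statements.S02

set_option autoImplicit false
open FreyPackage

namespace Fermat.Agent.S02

theorem zmod4_three_iff (a : ℤ) : (a : ZMod 4) = 3 ↔ a % 4 = 3 := by
  rw [show (3 : ZMod 4) = ((3 : ℤ) : ZMod 4) by norm_num, ZMod.intCast_eq_intCast_iff]
  simp [Int.ModEq]

theorem zmod2_zero_iff (a : ℤ) : (a : ZMod 2) = 0 ↔ a % 2 = 0 := by
  rw [ZMod.intCast_zmod_eq_zero_iff_dvd]
  omega

theorem gcd_eq_one_iff (a b : ℤ) : gcd a b = 1 ↔ Int.gcd a b = 1 := by
  rw [← Int.coe_gcd]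
  exact_mod_cast Iff.rfl

/-- Coprime, `b` even, `a` odd: fix the sign. -/
theorem aux_sign (a b c : ℤ) (ha : a ≠ 0) (hb : b ≠ 0) (hc : c ≠ 0) (p : ℕ) (pp : p.Prime)
    (hp5 : 5 ≤ p) (H : a ^ p + b ^ p = c ^ p) (hab : Int.gcd a b = 1) (hb2 : b % 2 = 0)
    (ha2 : a % 2 = 1) : Nonempty FreyPackage := by
  have hodd : Odd p := pp.odd_of_ne_two (by omega)
  by_cases ha4 : a % 4 = 3
  · exact ⟨{ a := a, b := b, c := c, ha0 := ha, hb0 := hb, hc0 := hc, p := p, pp := pp,
             hp5 := hp5, hFLT := H, hgcdab := (gcd_eq_one_iff a b).2 hab,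
             ha4 := (zmod4_three_iff a).2 ha4, hb2 := (zmod2_zero_iff b).2 hb2 }⟩
  · refine ⟨{ a := -a, b := -b, c := -c, ha0 := neg_ne_zero.2 ha, hb0 := neg_ne_zero.2 hb,
              hc0 := neg_ne_zero.2 hc, p := p, pp := pp, hp5 := hp5, hFLT := ?_,
              hgcdab := ?_, ha4 := ?_, hb2 := ?_ }⟩
    · rw [hodd.neg_pow, hodd.neg_pow, hodd.neg_pow, ← H]; ring
    · rw [gcd_eq_one_iff]; simpa using hab
    · rw [zmod4_three_iff]; omega
    · rw [zmod2_zero_iff]; omega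

/-- Coprime: fix the parity. -/
theorem aux_parity (a b c : ℤ) (ha : a ≠ 0) (hb : b ≠ 0) (hc : c ≠ 0) (p : ℕ) (pp : p.Prime)
    (hp5 : 5 ≤ p) (H : a ^ p + b ^ p = c ^ p) (hab : Int.gcd a b = 1) :
    Nonempty FreyPackage := by
  have hodd : Odd p := pp.odd_of_ne_two (by omega)
  have hp0 : p ≠ 0 := by omega
  rcases Int.emod_two_eq_zero_or_one b with hb2 | hb2
  · -- b even, so a odd
    have ha2 : a % 2 = 1 := by
      rcases Int.emod_two_eq_zero_or_one a with ha2 | ha2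
      · exfalso
        have h2 : (2 : ℤ) ∣ (Int.gcd a b : ℤ) :=
          Int.dvd_coe_gcd (Int.dvd_of_emod_eq_zero ha2) (Int.dvd_of_emod_eq_zero hb2)
        rw [hab] at h2
        norm_num at h2
      · exact ha2
    exact aux_sign a b c ha hb hc p pp hp5 H hab hb2 ha2
  · rcases Int.emod_two_eq_zero_or_one a with ha2 | ha2
    · -- a even, b odd: swap
      exact aux_sign b a c hb ha hc p pp hp5 (by rw [add_comm]; exact H)
        (by rw [Int.gcd_comm]; exact hab) ha2 hb2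
    · -- both odd: c even; use a ^ p + (-c) ^ p = (-b) ^ p
      have hc2 : c % 2 = 0 := by
        have hap : a ^ p % 2 = 1 := by
          have : Odd (a ^ p) := (Int.odd_iff.2 ha2).pow
          exact Int.odd_iff.1 this
        have hbp : b ^ p % 2 = 1 := by
          have : Odd (b ^ p) := (Int.odd_iff.2 hb2).pow
          exact Int.odd_iff.1 this
        have hcp : c ^ p % 2 = 0 := by rw [← H]; omega
        rcases Int.emod_two_eq_zero_or_one c with h | h
        · exact h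
        · exfalso
          have : Odd (c ^ p) := (Int.odd_iff.2 h).pow
          have := Int.odd_iff.1 this
          omega
      have hac : Int.gcd a c = 1 := by
        have h1 := FreyPackage.gcdab_eq_gcdac (Nat.pos_of_ne_zero hp0) H
        rw [← Int.coe_gcd, ← Int.coe_gcd] at h1
        have h2 : Int.gcd a b = Int.gcd a c := by exact_mod_cast h1
        rw [← h2]; exact hab
      refine aux_sign a (-c) (-b) ha (neg_ne_zero.2 hc) (neg_ne_zero.2 hb) p pp hp5 ?_ ?_ ?_ ha2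
      · rw [hodd.neg_pow, hodd.neg_pow, ← H]; ring
      · simpa using hac
      · omega

theorem result (a b c : ℤ) (ha : a ≠ 0) (hb : b ≠ 0) (hc : c ≠ 0) (p : ℕ) (pp : p.Prime) (hp5 : 5 ≤ p) (H : a ^ p + b ^ p = c ^ p) : Nonempty FreyPackage := by
  have hp0 : p ≠ 0 := by omega
  -- divide out the gcd of a and b
  set d : ℤ := (Int.gcd a b : ℤ) with hd
  have hd0 : d ≠ 0 := by
    rw [hd]
    exact_mod_cast Int.gcd_ne_zero_left ha
  obtain ⟨a', ha'⟩ : d ∣ a := Int.gcd_dvd_left a b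
  obtain ⟨b', hb'⟩ : d ∣ b := Int.gcd_dvd_right a b
  have hdc : d ∣ c := by
    rw [← Int.pow_dvd_pow_iff hp0, ← H]
    exact dvd_add (pow_dvd_pow_of_dvd ⟨a', ha'⟩ p) (pow_dvd_pow_of_dvd ⟨b', hb'⟩ p)
  obtain ⟨c', hc'⟩ := hdc
  have ha'0 : a' ≠ 0 := by rintro rfl; exact ha (by rw [ha', mul_zero])
  have hb'0 : b' ≠ 0 := by rintro rfl; exact hb (by rw [hb', mul_zero])
  have hc'0 : c' ≠ 0 := by rintro rfl; exact hc (by rw [hc', mul_zero])
  have H' : a' ^ p + b' ^ p = c' ^ p := by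
    have h1 : d ^ p * (a' ^ p + b' ^ p) = d ^ p * c' ^ p := by
      rw [mul_add, ← mul_pow, ← mul_pow, ← mul_pow, ← ha', ← hb', ← hc']; exact H
    exact mul_left_cancel₀ (pow_ne_zero p hd0) h1
  have hab' : Int.gcd a' b' = 1 := by
    have h1 : Int.gcd a b = Int.gcd a b * Int.gcd a' b' := by
      conv_lhs => rw [ha', hb', Int.gcd_mul_left]
      rw [hd]; simp
    have hpos : 0 < Int.gcd a b := Int.gcd_pos_of_ne_zero_left b ha
    have h2 : Int.gcd a b * Int.gcd a' b' = Int.gcd a b * 1 := by rw [mul_one]; exact h1.symm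
    exact Nat.eq_of_mul_eq_mul_left hpos h2
  exact aux_parity a' b' c' ha'0 hb'0 hc'0 p pp hp5 H' hab'

end Fermat.Agent.S02
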