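-- Statement S05: the mod-p Galois representation of the Frey curve is unramified at q ≠ 2, p.
import Fermat.Statements.S05
import Fermat.Agent.S05.Assembly
import Fermat.Agent.S05.FreyModel

set_option autoImplicit false
open WeierstrassCurve WeierstrassCurve.Affine WeierstrassCurve.Affine.Point
open CuspForm ModularFormClass UpperHalfPlane
open FreyPackage

namespace Fermat.Agent.S05

theorem result (P : FreyPackage) {q : ℕ} (hq : q.Prime) (hq2 : q ≠ 2) (hqp : q ≠ P.p) : P.GaloisRepUnramifiedAt q := by
  intro A hA σ hσ x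
  apply Subtype.ext
  obtain ⟨a₂, a₄, r, hE2, hE4, hr, hred⟩ := frey_model P hq A hA
  have hprime : Prime (q : ℤ) := Nat.prime_iff_prime_int.mp hq
  have h2 : A.valuation (2 : AlgebraicClosure ℚ) = 1 := by
    have := valuation_intCast_eq_one A hq hA 2 (by
      intro h
      have h' : q ∣ 2 := by exact_mod_cast h
      exact hq2 ((Nat.prime_dvd_prime_iff_eq hq Nat.prime_two).1 h'))
    simpa using this
  have hpv : A.valuation ((P.p : ℕ) : AlgebraicClosure ℚ) = 1 := by
    have := valuation_intCast_eq_one A hq hA (P.p : ℤ) (by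
      intro h
      have h' : q ∣ P.p := by exact_mod_cast h
      exact hqp ((Nat.prime_dvd_prime_iff_eq hq P.pp).1 h'))
    simpa using this
  have hp2 : P.p ≠ 2 := by have := P.hp5; omega
  have hx := (Submodule.mem_torsionBy_iff _ _).1 x.2
  have hx' : P.p • x.1 = 0 := by
    rw [← hx, natCast_zsmul]
  exact unram_of_model P.freyCurve A σ hσ P.pp hp2 hpv h2 a₂ a₄ r rfl rfl rfl hE2 hE4 hr hred
    x.1 hx'

end Fermat.Agent.S05
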