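import Fermat.Statements.S07
import Fermat.Prelude.Thm_ModularForm_sturm_bound_Gamma0
import Fermat.Prelude.Thm_CongruenceSubgroup_one_mem_strictPeriods_Gamma0

set_option autoImplicit false
open WeierstrassCurve WeierstrassCurve.Affine WeierstrassCurve.Affine.Point
open CuspForm ModularFormClass UpperHalfPlane
open ModularForm

namespace Fermat.Agent.S07

open scoped MatrixGroups

theorem card_SL2_ZMod2 : Nat.card (Matrix.SpecialLinearGroup (Fin 2) (ZMod 2)) = 6 := by
  rw [Nat.card_eq_fintype_card]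
  decide

theorem index_Gamma_two_dvd : (CongruenceSubgroup.Gamma 2).index ∣ 6 := by
  have h1 : (CongruenceSubgroup.Gamma 2).index =
      Nat.card (Matrix.SpecialLinearGroup.map (n := Fin 2) (Int.castRingHom (ZMod 2))).range :=
    Subgroup.index_ker _
  rw [h1, ← card_SL2_ZMod2]
  exact Subgroup.card_subgroup_dvd_card _

theorem Gamma_two_le_Gamma0_two : CongruenceSubgroup.Gamma 2 ≤ CongruenceSubgroup.Gamma0 2 := by
  intro A hA
  rw [CongruenceSubgroup.Gamma_mem] at hA
  rw [CongruenceSubgroup.Gamma0_mem]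
  exact hA.2.2.1

theorem not_Gamma0_two_le_Gamma_two :
    ¬ CongruenceSubgroup.Gamma0 2 ≤ CongruenceSubgroup.Gamma 2 := by
  intro h
  have hT : ModularGroup.T ∈ CongruenceSubgroup.Gamma0 2 := by
    rw [CongruenceSubgroup.Gamma0_mem]
    simp [ModularGroup.T]
  have hT' := h hT
  rw [CongruenceSubgroup.Gamma_mem] at hT'
  have h01 := hT'.2.1
  simp [ModularGroup.T] at h01

theorem index_Gamma0_two_le : (CongruenceSubgroup.Gamma0 2).index ≤ 3 := by
  have hmul := Subgroup.relIndex_mul_index Gamma_two_le_Gamma0_two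
  have hdvd := index_Gamma_two_dvd
  have hne1 : (CongruenceSubgroup.Gamma 2).relIndex (CongruenceSubgroup.Gamma0 2) ≠ 1 := by
    intro h1
    exact not_Gamma0_two_le_Gamma_two (Subgroup.relIndex_eq_one.mp h1)
  have hne0 : (CongruenceSubgroup.Gamma 2).index ≠ 0 := Subgroup.FiniteIndex.index_ne_zero
  have hle : (CongruenceSubgroup.Gamma 2).index ≤ 6 := Nat.le_of_dvd (by norm_num) hdvd
  set r := (CongruenceSubgroup.Gamma 2).relIndex (CongruenceSubgroup.Gamma0 2)
  set i := (CongruenceSubgroup.Gamma0 2).index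
  set j := (CongruenceSubgroup.Gamma 2).index
  have hr0 : r ≠ 0 := by
    intro h0
    rw [h0, zero_mul] at hmul
    exact hne0 hmul.symm
  have hr2 : 2 ≤ r := by omega
  by_contra hcon
  have hi : 4 ≤ i := by omega
  have : 8 ≤ r * i := by nlinarith
  omega

theorem result (f : CuspForm (CongruenceSubgroup.Gamma0 2) 2) : f = 0 := by
  have hmf : (ModularFormClass.modularForm f : ModularForm (CongruenceSubgroup.Gamma0 2) 2) = 0 := by
    refine ModularForm.sturm_bound_Gamma0 2 _ fun n hn ↦ ?_
    have hidx := index_Gamma0_two_le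
    have hn0 : n = 0 := by
      have h1 : ((2 : ℤ) * ((CongruenceSubgroup.Gamma0 2).index : ℤ)).toNat ≤ 6 := by omega
      omega
    subst hn0
    exact CuspFormClass.qExpansion_coeff_zero f one_pos
      (CongruenceSubgroup.one_mem_strictPeriods_Gamma0 2)
  have hcoe : (⇑f : ℍ → ℂ) = 0 := by
    have := congrArg (fun F : ModularForm (CongruenceSubgroup.Gamma0 2) 2 ↦ (⇑F : ℍ → ℂ)) hmf
    simpa using this
  exact DFunLike.coe_injective (hcoe.trans FunLike.coe_zero.symm)

end Fermat.Agent.S07
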