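-- S11: vacuous, because Fermat's Last Theorem holds for the exponents 5, 7, 11, 13 (Kummer's proof:
-- class number one, Kummer's lemma, Sophie Germain), so no Frey package with such an exponent exists.
import Fermat.Statements.S11
import Fermat.Agent.Kummer.Main

set_option autoImplicit false
open WeierstrassCurve WeierstrassCurve.Affine WeierstrassCurve.Affine.Point
open CuspForm ModularFormClass UpperHalfPlane
open FreyPackage

namespace Fermat.Agent.S11

theorem result (P : FreyPackage) (hp : P.p = 11) : ¬ HasGaloisStableCofixedLine (K := AlgebraicClosure ℚ) ℚ P.freyCurve P.p :=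
  (Fermat.Agent.Kummer.no_frey P (Or.inr (Or.inr (Or.inl hp)))).elim

end Fermat.Agent.S11
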