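-- Statement S14 (ExtCitation.extVanishingCts_of_three_le): every continuous admissible extension
-- splits globally.  Route: Kummer theory + Thaine's relation + a density argument (no class field
-- theory); see `Fermat/Agent/S14/*.lean`.
import Fermat.Statements.S14
import Fermat.Agent.S14.Main

set_option autoImplicit false
open ExtCitation

namespace Fermat.Agent.S14

theorem result {p : ℕ} [Fact p.Prime] (h3 : 3 ≤ p) :
    ExtCitation.ExtVanishingCts p := by
  intro V _ _ _ _ C hadm
  by_contra hns
  obtain ⟨α, hα⟩ := exists_kummerDatum p h3 V C hadm hns
  exact no_kummerDatum p h3 α hα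

end Fermat.Agent.S14
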