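import Fermat.Statements.S16
import Fermat.Agent.S16.Defs
import Fermat.Agent.S16.Algebra
import Fermat.Agent.S16.Duality
import Fermat.Agent.S16.LMain
import Fermat.Agent.S16.Upper

set_option autoImplicit false
open ModularCurve CuspForm
open ModularCurve

namespace Fermat.Agent.S16

theorem result
    (p : ℕ) [Fact p.Prime] :
    Nat.card (↥(heckeLatticeAlgebra p ∅) ⧸
        Ideal.map ((latticeRestrictHom p ∅).toRingHom.comp (heckeEvalForms p 2))
          (eisensteinIdeal p)) =
      eisensteinNumerator p := by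
  have hp : 2 ≤ p := (Fact.out : p.Prime).two_le
  have hn : 1 ≤ eisensteinNumerator p :=
    Nat.div_pos (Nat.le_of_dvd (by omega) (Nat.gcd_dvd_left _ _))
      (Nat.gcd_pos_of_pos_left _ (by omega))
  refine card_quotient_eq (psi p) (evE p) (psi_surjective p) (eisensteinNumerator p) hn ?_ ?_
  · obtain ⟨μ, hμ⟩ := exists_eisenstein_character p
    exact ⟨μ, (eisenstein_char_iff p _ μ).mpr hμ⟩
  · rintro k hk ⟨φ, hφ⟩
    obtain ⟨f, hf⟩ := duality p k hk φ ((eisenstein_char_iff p k φ).mp hφ)
    exact upper_bound p k hk f hf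

end Fermat.Agent.S16
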