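import Fermat.Statements.S28
import Fermat.Agent.S28.Glue
import Fermat.Agent.S28.Charts
import Fermat.Agent.S28.Descent
import Fermat.Agent.S28.Assemble
import Fermat.Agent.S28.LevelOne

set_option autoImplicit false
open AlgebraicGeometry CategoryTheory CategoryTheory.Limits ModularCurve ModularCurve.IgusaScheme
noncomputable section
set_option autoImplicit false
open ModularCurve ModularCurve.IgusaScheme

namespace Fermat.Agent.S28

/-- The modular input exists for every level prime to `ℓ`. -/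
theorem exists_modInput (N : ℕ) [NeZero N] (ℓ : ℕ) [Fact ℓ.Prime] (hℓN : ¬ ℓ ∣ N) :
    ∃ n : ℕ, Nonempty (ModInput N ℓ n) := by
  by_cases hN : 2 ≤ N
  · obtain ⟨D⟩ := nonempty_unitData N ℓ hN hℓN
    exact ⟨_, nonempty_modInput_of_unitData D⟩
  · have h1 : N = 1 := by
      have := NeZero.ne N
      omega
    subst h1
    exact ⟨1, nonempty_modInput_one ℓ⟩

set_option maxHeartbeats 4000000 in
set_option synthInstance.maxHeartbeats 400000 in
theorem result
    (N : ℕ) [NeZero N] (ℓ : ℕ) [Fact ℓ.Prime] (hℓN : ¬ ℓ ∣ N)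
    (K : Type) [Field K] [CharP K ℓ] [Algebra ↥(GaloisRep.ratLocalizedAt ℓ) K] :
    IsIntegral ↑(pullback (igusaTo N ℓ)
      (Spec.map (CommRingCat.ofHom (algebraMap ↥(GaloisRep.ratLocalizedAt ℓ) K)))) := by
  obtain ⟨n, ⟨I⟩⟩ := exists_modInput N ℓ hℓN
  exact Fermat.Agent.S28Glue.isIntegral_pullback_of_charts N ℓ K
    (isDomain_tensor_chartAlgFin I K) (isDomain_tensor_chartAlgInf I K)
    (nontrivial_tensor_chartAlgMid I K)

end Fermat.Agent.S28
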