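import Fermat.Statements.S49
import Fermat.Agent.S49.Main
import Fermat.Agent.S49.Normalize

set_option autoImplicit false
open CuspForm EisensteinWeightOne CongruenceSubgroup ModularFormClass
open FLT FLT.AbstractIntegralStructure

namespace Fermat.Agent.S49

theorem result
    {N : ℕ} [NeZero N] (h : CuspForm.HasIntegralBasis N) {a : ℕ → ℤ}
    (heig : FormalHecke.IsEigensystem
      (fun ℓ => if ℓ ∣ N then 0 else ((chiNegThree ℓ : ℤ) : ℤ)) a)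
    (hreal : CuspForm.IsLatticeRealized N a) :
    ∃ (f : CuspForm (Gamma0 N) 2) (_ : f.IsNormalizedEigenform)
      (𝔪' : Ideal (integralClosure ℤ ℂ)), 𝔪'.IsMaximal ∧
      ((3 : ℕ) : integralClosure ℤ ℂ) ∈ 𝔪' ∧
      ∀ (ℓ : ℕ) (_ : ℓ.Prime) (_ : ¬ ℓ ∣ N),
        ∃ c : integralClosure ℤ ℂ, (c : ℂ) = ModularFormClass.qCoeff f ℓ ∧
          c - (a ℓ : integralClosure ℤ ℂ) ∈ 𝔪' := by
  obtain ⟨f₀, -, af, haf, h3b⟩ := hreal
  have h3 : ∀ n, (3 : ℤ) ∣ af n - a n := fun n => by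
    have h1 := dvd_add (h3b n) (bridge_coeff a n)
    simpa using h1
  have hf₀L : f₀ ∈ CuspForm.intLattice N 2 :=
    (mem_lat_iff f₀).mpr fun n => ⟨af n, (haf n).symm⟩
  have hf₀3 : ¬ InL3 f₀ := by
    intro hcon
    obtain ⟨m, hm⟩ := hcon 1
    rw [← haf 1] at hm
    have hm' : af 1 = 3 * m := by exact_mod_cast hm
    have h4 := h3 1
    rw [heig.1, hm'] at h4
    omega
  obtain ⟨hT, hU⟩ := scalar_mod3 heig f₀ haf h3
  let ρ : (CuspForm.heckeAlgebra N 2 (∅ : Set ℕ)) →+*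
      Module.End ℂ (CuspForm (Gamma0 N) 2) :=
    (CuspForm.heckeAlgebra N 2 (∅ : Set ℕ)).val.toRingHom
  have hρ : Function.Injective ρ := Subtype.val_injective
  obtain ⟨v, ψ, 𝔪', hv, heigv, hmax, hcong⟩ := main_abs ρ hρ (fun t => t.2) h f₀ hf₀3
    (fun t => scalar_all f₀ hT hU t.2) (inL3_three_smul hf₀L)
  let lam : ℕ → integralClosure ℤ ℂ := fun ℓ =>
    if hℓ : ℓ.Prime then
      (if hN : ℓ ∣ N then ψ (CuspForm.heckeAlgebra.U hℓ hN (Set.notMem_empty ℓ))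
       else ψ (CuspForm.heckeAlgebra.T hℓ hN (Set.notMem_empty ℓ)))
    else 0
  have hlamT : ∀ (ℓ : ℕ) (hℓ : ℓ.Prime) (hN : ¬ ℓ ∣ N),
      lam ℓ = ψ (CuspForm.heckeAlgebra.T hℓ hN (Set.notMem_empty ℓ)) := by
    intro ℓ hℓ hN
    simp only [lam, dif_pos hℓ, dif_neg hN]
  have hlamU : ∀ (ℓ : ℕ) (hℓ : ℓ.Prime) (hN : ℓ ∣ N),
      lam ℓ = ψ (CuspForm.heckeAlgebra.U hℓ hN (Set.notMem_empty ℓ)) := by
    intro ℓ hℓ hN
    simp only [lam, dif_pos hℓ, dif_pos hN]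
  obtain ⟨g, hg, hgl⟩ := exists_normalized v hv (fun ℓ => ((lam ℓ : integralClosure ℤ ℂ) : ℂ))
    (fun ℓ hℓ hℓN => by
      simp only [hlamT ℓ hℓ hℓN]
      exact heigv (CuspForm.heckeAlgebra.T hℓ hℓN (Set.notMem_empty ℓ)))
    (fun q hq hqN => by
      simp only [hlamU q hq hqN]
      exact heigv (CuspForm.heckeAlgebra.U hq hqN (Set.notMem_empty q)))
  refine ⟨g, hg, 𝔪', hmax, ?_, ?_⟩
  · have h5 := hcong ((3 : ℕ) : CuspForm.heckeAlgebra N 2 (∅ : Set ℕ)) (by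
      have h6 : ρ ((3 : ℕ) : CuspForm.heckeAlgebra N 2 (∅ : Set ℕ)) f₀ = (3 : ℂ) • f₀ := by
        rw [map_natCast, Module.End.natCast_apply, ← Nat.cast_smul_eq_nsmul ℂ]
        norm_num
      rw [h6]
      exact inL3_three_smul hf₀L)
    rw [map_natCast] at h5
    exact h5
  · intro ℓ hℓ hℓN
    refine ⟨lam ℓ, (hgl ℓ hℓ).symm, ?_⟩
    rw [hlamT ℓ hℓ hℓN]
    have h5 := hcong (CuspForm.heckeAlgebra.T hℓ hℓN (Set.notMem_empty ℓ) -
        ((a ℓ : ℤ) : CuspForm.heckeAlgebra N 2 (∅ : Set ℕ))) (by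
      have h6 : ρ (CuspForm.heckeAlgebra.T hℓ hℓN (Set.notMem_empty ℓ) -
          ((a ℓ : ℤ) : CuspForm.heckeAlgebra N 2 (∅ : Set ℕ))) f₀ =
          CuspForm.heckeTLin 2 hℓ hℓN f₀ - ((a ℓ : ℤ) : ℂ) • f₀ := by
        rw [map_sub, map_intCast, LinearMap.sub_apply, Module.End.intCast_apply,
          ← Int.cast_smul_eq_zsmul ℂ]
        rfl
      rw [h6]
      exact hT ℓ hℓ hℓN)
    rw [map_sub, map_intCast] at h5
    exact h5

end Fermat.Agent.S49
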