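import Fermat.Statements.S54
import Fermat.Agent.S54.Frob

set_option autoImplicit false
open GaloisRep GaloisRep.DeformationRingData

namespace Fermat.Agent.S54

open Polynomial in
theorem trace_eq_of_charpoly {T : Type} [CommRing T] [Nontrivial T] {V : Type} [AddCommGroup V]
    [Module T V] [Module.Free T V] [Module.Finite T V] (hV : Module.finrank T V = 2)
    (f : Module.End T V) (a b : T) (h : LinearMap.charpoly f = X ^ 2 - C a * X + C b) :
    LinearMap.trace T V f = a := by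
  classical
  have hcard : Fintype.card (Module.Free.ChooseBasisIndex T V) = 2 := by
    rw [← Module.finrank_eq_card_chooseBasisIndex, hV]
  have : Nonempty (Module.Free.ChooseBasisIndex T V) := by
    rw [← Fintype.card_pos_iff, hcard]
    norm_num
  rw [LinearMap.trace_eq_matrix_trace T (Module.Free.chooseBasis T V) f,
    Matrix.trace_eq_neg_charpoly_coeff, hcard]
  have h2 : (LinearMap.toMatrix (Module.Free.chooseBasis T V) (Module.Free.chooseBasis T V) f).charpoly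
      = X ^ 2 - C a * X + C b := h
  rw [h2]
  simp [coeff_X_pow, coeff_C]

theorem trace_eq_of_equiv {T : Type} [CommRing T] {V W : Type} [AddCommGroup V] [Module T V]
    [AddCommGroup W] [Module T W] (e : V ≃ₗ[T] W) (f : Module.End T V) (g : Module.End T W)
    (h : ∀ x, e (f x) = g (e x)) : LinearMap.trace T W g = LinearMap.trace T V f := by
  have hconj : g = e.conj f := by
    apply LinearMap.ext
    intro x
    rw [LinearEquiv.conj_apply_apply, h, LinearEquiv.apply_symm_apply]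
  rw [hconj, LinearMap.trace_conj']

theorem trace_baseChangeAlong {A B : Type} [CommRing A] [IsLocalRing A] [CommRing B]
    [IsLocalRing B] (φ : A →+* B) (hφ : IsLocalHom φ) (ρ : GaloisRepAdic A)
    (σ : AlgebraicClosure ℚ ≃ₐ[ℚ] AlgebraicClosure ℚ) :
    LinearMap.trace B (ρ.baseChangeAlong φ hφ).V ((ρ.baseChangeAlong φ hφ).ρ σ) =
      φ (LinearMap.trace A ρ.V (ρ.ρ σ)) := by
  let _ : Algebra A B := φ.toAlgebra
  exact LinearMap.trace_baseChange (ρ.ρ σ) B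

theorem result {𝒪 : Type} [CommRing 𝒪] [IsDomain 𝒪] [IsDiscreteValuationRing 𝒪] [IsAdicComplete (IsLocalRing.maximalIdeal 𝒪) 𝒪] {ρbar : ResidualGaloisRep (IsLocalRing.ResidueField 𝒪)} {𝒟 : ∀ ⦃A : Type⦄ [CommRing A] [IsLocalRing A] [Algebra 𝒪 A], GaloisRepAdic A → Prop} (D : GaloisRep.DeformationRingData 𝒪 ρbar 𝒟) {N : ℕ} [NeZero N] {S : Set ℕ} {θ : CuspForm.heckeAlgebra N 2 S →+* IsLocalRing.ResidueField 𝒪} {T : Type} [CommRing T] [IsLocalRing T] [IsNoetherianRing T] [IsAdicComplete (IsLocalRing.maximalIdeal T) T] [Algebra 𝒪 T] [IsLocalHom (algebraMap 𝒪 T)] [Module.Finite 𝒪 T] [Module.Free 𝒪 T] (H : CuspForm.HeckeGaloisRepDatum N S 𝒪 θ T) (hS : ∀ q : ℕ, q.Prime → q ∣ N → q ∈ S) (h𝒟 : 𝒟 H.ρ) (hres : H.ρ.residual.IsEquiv (ρbar.baseChangeAlong (IsLocalRing.ResidueField.map (algebraMap 𝒪 T)))) : ∃ φ : D.R →ₐ[𝒪] T, Function.Surjective φ ∧ ∃ hφ : IsLocalHom (φ : D.R →+* T), (D.ρ.baseChangeAlong (φ : D.R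 →+* T) hφ).IsEquiv H.ρ := by
  obtain ⟨φ, ⟨hφ, heq⟩, -⟩ := D.universal T H.residue_surjective H.ρ h𝒟 hres
  refine ⟨φ, ?_, hφ, heq⟩
  obtain ⟨e⟩ := heq
  have hT : ∀ (ℓ : ℕ) (hℓ : ℓ.Prime) (hℓN : ¬ ℓ ∣ N) (hℓS : ℓ ∉ S),
      H.π (CuspForm.heckeAlgebra.T hℓ hℓN hℓS) ∈ φ.range := by
    intro ℓ hℓ hℓN hℓS
    obtain ⟨A, σ, hA, hσ⟩ := exists_isFrobeniusAt ℓ hℓ
    have hcp := H.charpoly_frob ℓ hℓ hℓN hℓS A hA σ hσ
    have htr : LinearMap.trace T H.ρ.V (H.ρ.ρ σ) = H.π (CuspForm.heckeAlgebra.T hℓ hℓN hℓS) :=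
      trace_eq_of_charpoly H.ρ.finrank_eq _ _ _ hcp
    refine ⟨LinearMap.trace D.R D.ρ.V (D.ρ.ρ σ), ?_⟩
    rw [← htr, trace_eq_of_equiv e.toLinearEquiv _ _ (e.map_apply σ), trace_baseChangeAlong]
    rfl
  have hrange : ∀ t : CuspForm.heckeAlgebra N 2 S, H.π t ∈ φ.range := by
    rintro ⟨t, ht⟩
    induction ht using Algebra.adjoin_induction with
    | mem x hx =>
      rcases hx with ⟨ℓ, hℓ, hℓN, hℓS, rfl⟩ | ⟨q, hqN, hq, hqS, rfl⟩
      · exact hT ℓ hℓ hℓN hℓS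
      · exact absurd (hS q hq hqN) hqS
    | algebraMap r =>
      have h1 : H.π ⟨algebraMap ℤ _ r, Subalgebra.algebraMap_mem _ r⟩ = (r : T) :=
        eq_intCast (H.π.comp (algebraMap ℤ (CuspForm.heckeAlgebra N 2 S))) r
      rw [h1]
      exact intCast_mem _ r
    | add x y hx hy hx' hy' =>
      have h1 : H.π ⟨x + y, add_mem hx hy⟩ = H.π ⟨x, hx⟩ + H.π ⟨y, hy⟩ := map_add H.π ⟨x, hx⟩ ⟨y, hy⟩
      rw [h1]
      exact add_mem hx' hy'
    | mul x y hx hy hx' hy' =>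
      have h1 : H.π ⟨x * y, mul_mem hx hy⟩ = H.π ⟨x, hx⟩ * H.π ⟨y, hy⟩ := map_mul H.π ⟨x, hx⟩ ⟨y, hy⟩
      rw [h1]
      exact mul_mem hx' hy'
  have htop : (⊤ : Subalgebra 𝒪 T) ≤ φ.range := by
    rw [← H.adjoin_range_π]
    refine Algebra.adjoin_le ?_
    rintro _ ⟨t, rfl⟩
    exact hrange t
  intro y
  exact htop (Algebra.mem_top)

end Fermat.Agent.S54
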