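import Fermat.Statements.S57
import Fermat.Agent.S57.Regular
import Fermat.Agent.S57.PowerSeries

set_option autoImplicit false
open Algebra Algebra.PatchingLevel

namespace Fermat.Agent.S57

open MvPowerSeries RingTheory.Sequence IsLocalRing

section Main

variable {𝒪 : Type} [CommRing 𝒪] {r : ℕ} {R : Type} [CommRing R] [Algebra 𝒪 R]
    {M : Type} [AddCommGroup M] [Module R M]
    (L : Algebra.PatchingLevel 𝒪 r R M ⊥)

/-- The twisted coordinate map `c ↦ ∑ φ (c i) • b i`. -/
noncomputable def phiHom : (Fin L.d → MvPowerSeries (Fin r) 𝒪) →+ L.N where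
  toFun c := ∑ i, L.φ (c i) • L.b i
  map_zero' := by simp
  map_add' := by
    intro c c'
    simp [add_smul, Finset.sum_add_distrib]

lemma phiHom_bijective : Function.Bijective (phiHom L) := by
  constructor
  · rw [injective_iff_map_eq_zero]
    intro c hc
    have h := (L.b_rel c).mp hc
    funext i
    exact Ideal.mem_bot.mp (h i)
  · intro x
    obtain ⟨c, hc⟩ := L.b_span x
    exact ⟨c, hc.symm⟩

noncomputable def phiEquiv : (Fin L.d → MvPowerSeries (Fin r) 𝒪) ≃+ L.N :=
  AddEquiv.ofBijective (phiHom L) (phiHom_bijective L)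

lemma phiEquiv_smul (f : MvPowerSeries (Fin r) 𝒪) (c : Fin L.d → MvPowerSeries (Fin r) 𝒪) :
    phiEquiv L (f • c) = L.φ f • phiEquiv L c := by
  show ∑ i, L.φ ((f • c) i) • L.b i = L.φ f • ∑ i, L.φ (c i) • L.b i
  rw [Finset.smul_sum]
  refine Finset.sum_congr rfl fun i _ => ?_
  rw [Pi.smul_apply, smul_eq_mul, map_mul, mul_smul]

lemma isWeaklyRegular_N {ϖ : 𝒪} (hϖ : ∀ x : 𝒪, ϖ * x = 0 → x = 0) :
    IsWeaklyRegular L.N
      ((List.ofFn (fun j : Fin r => (X j : MvPowerSeries (Fin r) 𝒪)) ++ [C ϖ]).map L.φ) := by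
  have h1 := isWeaklyRegular_X_C (r := r) hϖ
  have h2 : IsWeaklyRegular (Fin L.d → MvPowerSeries (Fin r) 𝒪)
      (List.ofFn (fun j : Fin r => (X j : MvPowerSeries (Fin r) 𝒪)) ++ [C ϖ]) := by
    have h := h1.isWeaklyRegular_lTensor (M₂ := Fin L.d → MvPowerSeries (Fin r) 𝒪)
    exact (LinearEquiv.isWeaklyRegular_congr
      (TensorProduct.rid (MvPowerSeries (Fin r) 𝒪) (Fin L.d → MvPowerSeries (Fin r) 𝒪)) _).mp h
  exact (AddEquiv.isWeaklyRegular_congr (e := phiEquiv L)
    (List.forall₂_map_right_iff.mpr <| List.forall₂_same.mpr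
      fun f _ c => phiEquiv_smul L f c)).mp h2

lemma finite_N : Module.Finite (MvPowerSeries (Fin r) 𝒪) L.N := by
  apply Module.Finite.of_surjective (Fintype.linearCombination (MvPowerSeries (Fin r) 𝒪) L.b)
  intro x
  obtain ⟨c, hc⟩ := L.b_span x
  exact ⟨fun i => L.φ (c i), by simp [Fintype.linearCombination_apply, hc]⟩

end Main

theorem result
    {𝒪 : Type} [CommRing 𝒪] [IsDomain 𝒪] [IsDiscreteValuationRing 𝒪]
    {r : ℕ} {R : Type} [CommRing R] [Algebra 𝒪 R]
    {M : Type} [AddCommGroup M] [Module R M] [Nontrivial M]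
    (L : Algebra.PatchingLevel 𝒪 r R M ⊥) :
    Module.Free R M ∧ Module.annihilator R M = ⊥ ∧
      RingHom.ker L.ψ = Ideal.span (Set.range fun i : Fin r => L.φ (MvPowerSeries.X i)) := by
  classical
  have hfin : Module.Finite (MvPowerSeries (Fin r) 𝒪) L.N := finite_N L
  have hRnt : Nontrivial R := Module.nontrivial R M
  have hfreeN : Module.Free (MvPowerSeries (Fin r) 𝒪) L.N := by
    obtain ⟨ϖ, hϖ⟩ := IsDiscreteValuationRing.exists_irreducible 𝒪
    have hmax : maximalIdeal 𝒪 = Ideal.span {ϖ} := hϖ.maximalIdeal_eq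
    refine free_of_isWeaklyRegular (r + 1) (MvPowerSeries (Fin r) 𝒪) _
      (span_cons_C_X_eq_maximalIdeal hmax) L.N _ (by simp) ?_
      (isWeaklyRegular_N L (ϖ := ϖ) ?_)
    · intro x hx
      rw [List.mem_map] at hx
      obtain ⟨y, hy, rfl⟩ := hx
      rw [List.mem_append, List.mem_ofFn, List.mem_singleton] at hy
      rcases hy with ⟨j, rfl⟩ | rfl
      · rw [mem_maximalIdeal, mem_nonunits_iff]
        intro hu
        have hu' := hu.map L.ψ
        rw [L.ψ_φ_X] at hu'
        exact not_isUnit_zero hu'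
      · have hC : L.φ (C ϖ) = C ϖ := by
          rw [c_eq_algebraMap]
          exact L.φ.commutes ϖ
        rw [hC]
        exact C_mem_maximalIdeal (hmax ▸ Ideal.mem_span_singleton_self ϖ)
    · intro x hx
      exact (mul_eq_zero.mp hx).resolve_left hϖ.ne_zero
  let e := Module.Free.chooseBasis (MvPowerSeries (Fin r) 𝒪) L.N
  set I : Ideal (MvPowerSeries (Fin r) 𝒪) :=
    Ideal.span (Set.range fun i : Fin r => L.φ (MvPowerSeries.X i)) with hI
  have hcoef : ∀ x ∈ I • (⊤ : Submodule (MvPowerSeries (Fin r) 𝒪) L.N), ∀ j, e.repr x j ∈ I := by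
    intro x hx j
    refine Submodule.smul_induction_on hx ?_ ?_
    · intro a ha n _
      rw [map_smul, Finsupp.smul_apply, smul_eq_mul]
      exact Ideal.mul_mem_right _ _ ha
    · intro x y hx hy
      rw [map_add, Finsupp.add_apply]
      exact Ideal.add_mem _ hx hy
  have hIker : I ≤ RingHom.ker L.ψ := by
    rw [hI, Ideal.span_le]
    rintro _ ⟨i, rfl⟩
    exact L.ψ_φ_X i
  have hNnt : Nontrivial L.N := by
    by_contra h
    rw [not_nontrivial_iff_subsingleton] at h
    obtain ⟨m, hm⟩ := exists_ne (0 : M)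
    obtain ⟨x, rfl⟩ := L.π_surjective m
    rw [Subsingleton.elim x 0, map_zero] at hm
    exact hm rfl
  have hne : Nonempty (Module.Free.ChooseBasisIndex (MvPowerSeries (Fin r) 𝒪) L.N) :=
    e.index_nonempty
  have hkerψ : RingHom.ker L.ψ = I := by
    apply le_antisymm _ hIker
    intro f hf
    obtain ⟨j⟩ := hne
    have h1 : L.π (f • e j) = 0 := by
      rw [L.π_smul, RingHom.mem_ker.mp hf, zero_smul]
    have h2 := hcoef _ ((L.ker_π _).mp h1) j
    simpa using h2
  have hli : LinearIndependent R (fun j => L.π (e j)) := by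
    rw [Fintype.linearIndependent_iff]
    intro c hc j
    choose f hf using fun j => L.ψ_surjective (c j)
    have h1 : L.π (∑ j, f j • e j) = 0 := by
      rw [map_sum]
      simp_rw [L.π_smul, hf]
      exact hc
    have h2 := hcoef _ ((L.ker_π _).mp h1) j
    have h3 : e.repr (∑ j, f j • e j) j = f j := by
      simp [Finsupp.single_apply]
    rw [h3] at h2
    rw [← hf j]
    exact hIker h2
  have hsp : ⊤ ≤ Submodule.span R (Set.range fun j => L.π (e j)) := by
    intro m _
    obtain ⟨x, rfl⟩ := L.π_surjective m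
    rw [← e.sum_repr x, map_sum]
    refine Submodule.sum_mem _ fun j _ => ?_
    rw [L.π_smul]
    exact Submodule.smul_mem _ _ (Submodule.subset_span ⟨j, rfl⟩)
  have hfree : Module.Free R M := Module.Free.of_basis (Module.Basis.mk hli hsp)
  exact ⟨hfree, Module.annihilator_eq_bot.mpr inferInstance, hkerψ⟩

end Fermat.Agent.S57
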